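import Mathlib

/-!
# The Kummer generator of an unramified cyclic extension of the `p`-th cyclotomic field

Design-neutral core (Mathlib only) of the `[Bridge+]` / `[KG]` package of the S14 Thaine route.

Let `K` be the `p`-th cyclotomic field and `L / K` a Galois extension of degree `p` which is
unramified at every finite prime, in which the primes over `p` have trivial decomposition group,
and on which `Gal(K/ℚ)` acts on `Gal(L/K)` through the inverse of the cyclotomic character.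
Then `L = K(θ)` with `θ ^ p = α`, where `α` is an algebraic integer of `K`, prime to `1 - ζ`,
not a `p`-th power, of `ω²`-type, generating the `p`-th power of an ideal, and congruent to a
`p`-th power modulo `(1 - ζ) ^ 3` (`exists_singular_primary`).
-/

set_option autoImplicit false

open scoped NumberField
open IsDedekindDomain
open scoped Pointwise

namespace Fermat.Agent.S14.Thaine.KummerGen

section Dedekind

variable {A B : Type*} [CommRing A] [IsDedekindDomain A] [CommRing B] [IsDedekindDomain B]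
  [Algebra A B] [Module.IsTorsionFree A B]
variable (v : HeightOneSpectrum A) (w : HeightOneSpectrum B) [w.asIdeal.LiesOver v.asIdeal]

/-- At an unramified prime the valuations upstairs and downstairs agree. -/
theorem intValuation_algebraMap_of_ramificationIdx_eq_one
    (he : v.asIdeal.ramificationIdx' w.asIdeal = 1) (x : A) :
    w.intValuation (algebraMap A B x) = v.intValuation x := by
  have h := HeightOneSpectrum.intValuation_liesOver v w x
  rw [he, pow_one] at h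
  exact h.symm

/-- At an unramified prime, `w ^ n` contracts to `v ^ n`. -/
theorem mem_pow_of_algebraMap_mem_pow
    (he : v.asIdeal.ramificationIdx' w.asIdeal = 1) (x : A) (n : ℕ)
    (h : algebraMap A B x ∈ w.asIdeal ^ n) : x ∈ v.asIdeal ^ n := by
  rw [← HeightOneSpectrum.intValuation_le_pow_iff_mem] at h ⊢
  rwa [intValuation_algebraMap_of_ramificationIdx_eq_one v w he] at h

/-- At an unramified prime, the multiplicity of `v` in a `p`-th power upstairs is divisible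
by `p`. -/
theorem dvd_multiplicity_of_pow_eq
    (he : v.asIdeal.ramificationIdx' w.asIdeal = 1) (x : A) (hx : x ≠ 0) (θ : B) (p : ℕ)
    (hp : p ≠ 0) (h : θ ^ p = algebraMap A B x) :
    p ∣ multiplicity v.asIdeal (Ideal.span {x}) := by
  have hinj : Function.Injective (algebraMap A B) := FaithfulSMul.algebraMap_injective A B
  have hx' : algebraMap A B x ≠ 0 := by
    rwa [Ne, map_eq_zero_iff _ hinj]
  have hθ : θ ≠ 0 := by
    rintro rfl
    rw [zero_pow hp] at h
    exact hx' h.symm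
  have h1 := intValuation_algebraMap_of_ramificationIdx_eq_one v w he x
  rw [← h, map_pow, HeightOneSpectrum.intValuation_eq_exp_neg_multiplicity w hθ,
    HeightOneSpectrum.intValuation_eq_exp_neg_multiplicity v hx, ← WithZero.exp_nsmul,
    WithZero.exp_inj] at h1
  refine ⟨multiplicity w.asIdeal (Ideal.span {θ}), ?_⟩
  have : (multiplicity v.asIdeal (Ideal.span {x}) : ℤ) =
      p * multiplicity w.asIdeal (Ideal.span {θ}) := by
    simp only [nsmul_eq_mul, mul_neg, neg_inj] at h1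
    exact h1.symm
  exact_mod_cast this

omit [IsDedekindDomain A] [IsDedekindDomain B] [Module.IsTorsionFree A B] in
/-- If `e = 1` there is an element of `v` which is a uniformiser at `w`. -/
theorem exists_mem_notMem_sq (he : v.asIdeal.ramificationIdx' w.asIdeal = 1) :
    ∃ ϖ ∈ v.asIdeal, algebraMap A B ϖ ∉ w.asIdeal ^ 2 := by
  have hle : Ideal.map (algebraMap A B) v.asIdeal ≤ w.asIdeal := by
    rw [Ideal.map_le_iff_le_comap]
    exact (Ideal.over_def w.asIdeal v.asIdeal).le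
  have h2 : ¬ Ideal.map (algebraMap A B) v.asIdeal ≤ w.asIdeal ^ 2 := by
    rw [← Ideal.ramificationIdx'_ne_one_iff hle]
    simpa using he
  rw [Ideal.map_le_iff_le_comap, SetLike.not_le_iff_exists] at h2
  obtain ⟨ϖ, h1, h2⟩ := h2
  exact ⟨ϖ, h1, by simpa using h2⟩

/-- Powers of a uniformiser have the expected valuation. -/
theorem pow_mem_pow_notMem_pow_succ (ϖ : B) (h1 : ϖ ∈ w.asIdeal) (h2 : ϖ ∉ w.asIdeal ^ 2)
    (n : ℕ) : ϖ ^ n ∈ w.asIdeal ^ n ∧ ϖ ^ n ∉ w.asIdeal ^ (n + 1) := by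
  refine ⟨Ideal.pow_mem_pow h1 n, ?_⟩
  have hϖ0 : ϖ ≠ 0 := by
    rintro rfl
    exact h2 (zero_mem _)
  have hval : w.intValuation ϖ = WithZero.exp (-1 : ℤ) := by
    rw [HeightOneSpectrum.intValuation_eq_exp_neg_multiplicity w hϖ0]
    have ha : w.intValuation ϖ ≤ WithZero.exp (-((1 : ℕ) : ℤ)) := by
      rw [HeightOneSpectrum.intValuation_le_pow_iff_mem, pow_one]; exact h1
    have hb : ¬ w.intValuation ϖ ≤ WithZero.exp (-((2 : ℕ) : ℤ)) := by
      rw [HeightOneSpectrum.intValuation_le_pow_iff_mem]; exact h2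
    rw [HeightOneSpectrum.intValuation_eq_exp_neg_multiplicity w hϖ0, WithZero.exp_le_exp] at ha hb
    rw [WithZero.exp_inj]
    push_cast at ha hb
    omega
  rw [← HeightOneSpectrum.intValuation_le_pow_iff_mem, map_pow, hval, ← WithZero.exp_nsmul,
    WithZero.exp_le_exp]
  simp

omit [IsDedekindDomain A] [Module.IsTorsionFree A B] in
/-- If `e = f = 1` at `w` then `A → B ⧸ w ^ n` is surjective. -/
theorem exists_sub_mem_pow (he : v.asIdeal.ramificationIdx' w.asIdeal = 1)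
    (hf : ∀ b : B, ∃ a : A, b - algebraMap A B a ∈ w.asIdeal) (n : ℕ) (b : B) :
    ∃ a : A, b - algebraMap A B a ∈ w.asIdeal ^ n := by
  obtain ⟨ϖ, hϖ1, hϖ2⟩ := exists_mem_notMem_sq v w he
  have hϖw : algebraMap A B ϖ ∈ w.asIdeal := by
    have := (Ideal.over_def w.asIdeal v.asIdeal).le hϖ1
    simpa using this
  induction n with
  | zero => exact ⟨0, by simp⟩
  | succ n ih =>
    obtain ⟨a, ha⟩ := ih
    obtain ⟨hp1, hp2⟩ := pow_mem_pow_notMem_pow_succ w (algebraMap A B ϖ) hϖw hϖ2 n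
    obtain ⟨d, e, he', hde⟩ := Ideal.exists_mul_add_mem_pow_succ w.ne_bot _ _ hp1 hp2 ha
    obtain ⟨a', ha'⟩ := hf d
    refine ⟨a + ϖ ^ n * a', ?_⟩
    have : b - algebraMap A B (a + ϖ ^ n * a') =
        algebraMap A B ϖ ^ n * (d - algebraMap A B a') + e := by
      rw [map_add, map_mul, map_pow]
      linear_combination -hde
    rw [this, pow_succ]
    exact add_mem (Ideal.mul_mem_mul hp1 ha') he'

omit [IsDedekindDomain B] [Module.IsTorsionFree A B] in
/-- Residue degree one gives surjectivity on residue fields. -/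
theorem exists_sub_mem_of_inertiaDeg_eq_one (hf : v.asIdeal.inertiaDeg' w.asIdeal = 1) (b : B) :
    ∃ a : A, b - algebraMap A B a ∈ w.asIdeal := by
  rw [Ideal.inertiaDeg'_algebraMap] at hf
  have := v.isMaximal
  let := Ideal.Quotient.field v.asIdeal
  have : Nontrivial (B ⧸ w.asIdeal) := Ideal.Quotient.nontrivial_iff.mpr w.isPrime.ne_top
  have h1 := Subalgebra.bot_eq_top_of_finrank_eq_one hf
  have h2 : Function.Surjective (algebraMap (A ⧸ v.asIdeal) (B ⧸ w.asIdeal)) :=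
    Algebra.surjective_algebraMap_iff.mpr h1.symm
  obtain ⟨a, ha⟩ := h2 (Ideal.Quotient.mk _ b)
  obtain ⟨a, rfl⟩ := Ideal.Quotient.mk_surjective a
  refine ⟨a, ?_⟩
  rw [← Ideal.Quotient.eq]
  rw [← ha]
  rfl

/-- An ideal all of whose prime multiplicities are divisible by `p` is a `p`-th power. -/
theorem exists_eq_pow_of_dvd_multiplicity (I : Ideal A) (hI : I ≠ ⊥) (p : ℕ)
    (h : ∀ v : HeightOneSpectrum A, p ∣ multiplicity v.asIdeal I) :
    ∃ J : Ideal A, I = J ^ p := by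
  classical
  obtain ⟨u, hu⟩ := Multiset.exists_smul_of_dvd_count
    (UniqueFactorizationMonoid.normalizedFactors I) (k := p) (by
      intro P hP
      have hPprime := UniqueFactorizationMonoid.prime_of_normalized_factor P hP
      have hPirr := hPprime.irreducible
      let v : HeightOneSpectrum A := ⟨P, Ideal.isPrime_of_prime hPprime, hPprime.ne_zero⟩
      have h1 := UniqueFactorizationMonoid.emultiplicity_eq_count_normalizedFactors hPirr hI
      rw [normalize_eq] at h1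
      have hfin : FiniteMultiplicity P I :=
        FiniteMultiplicity.of_prime_left hPprime hI
      rw [hfin.emultiplicity_eq_multiplicity] at h1
      have h2 : multiplicity P I = Multiset.count P (UniqueFactorizationMonoid.normalizedFactors I) := by
        exact_mod_cast h1
      rw [← h2]
      exact h v)
  refine ⟨u.prod, ?_⟩
  rw [← Multiset.prod_nsmul, ← hu, Ideal.prod_normalizedFactors_eq_self hI]

end Dedekind

section Galois

variable {K L : Type*} [Field K] [Field L] [NumberField K] [NumberField L] [Algebra K L]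
  [IsGalois K L]

omit [NumberField K] [NumberField L] [IsGalois K L] in
theorem under_ne_bot_of_ne_bot (Q : Ideal (𝓞 L)) (hQ0 : Q ≠ ⊥) : Q.under (𝓞 K) ≠ ⊥ :=
  Ideal.under_ne_bot _ hQ0

theorem ramificationIdx'_eq_one_of_inertia_eq_bot (Q : Ideal (𝓞 L)) [Q.IsPrime] (hQ0 : Q ≠ ⊥)
    (h : Q.inertia (L ≃ₐ[K] L) = ⊥) : (Q.under (𝓞 K)).ramificationIdx' Q = 1 := by
  have hp0 : Q.under (𝓞 K) ≠ ⊥ := under_ne_bot_of_ne_bot Q hQ0
  have h1 := Ideal.card_inertia_eq_ramificationIdxIn (G := L ≃ₐ[K] L) (Q.under (𝓞 K)) Q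
  rw [h, Ideal.ramificationIdxIn_eq_ramificationIdx (Q.under (𝓞 K)) Q (L ≃ₐ[K] L),
    ← Ideal.ramificationIdx'_eq_ramificationIdx _ _ hp0] at h1
  simpa using h1.symm

theorem ramificationIdx'_inertiaDeg'_eq_one_of_stabilizer (Q : Ideal (𝓞 L)) [Q.IsPrime]
    (hQ0 : Q ≠ ⊥) (h : ∀ τ : L ≃ₐ[K] L, τ • Q = Q → τ = 1) :
    (Q.under (𝓞 K)).ramificationIdx' Q = 1 ∧ (Q.under (𝓞 K)).inertiaDeg' Q = 1 := by
  have hp0 : Q.under (𝓞 K) ≠ ⊥ := under_ne_bot_of_ne_bot Q hQ0
  have hstab : MulAction.stabilizer (L ≃ₐ[K] L) Q = ⊥ := by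
    rw [eq_bot_iff]
    intro τ hτ
    exact h τ hτ
  have h1 := Ideal.card_stabilizer_eq (G := L ≃ₐ[K] L) (Q.under (𝓞 K)) Q
  rw [hstab, Ideal.ramificationIdxIn_eq_ramificationIdx (Q.under (𝓞 K)) Q (L ≃ₐ[K] L),
    Ideal.inertiaDegIn_eq_inertiaDeg (Q.under (𝓞 K)) Q (L ≃ₐ[K] L),
    ← Ideal.ramificationIdx'_eq_ramificationIdx _ _ hp0] at h1
  have hmax : (Q.under (𝓞 K)).IsMaximal := Ideal.IsPrime.isMaximal inferInstance hp0
  have hQmax : Q.IsMaximal := Ideal.IsPrime.isMaximal inferInstance hQ0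
  rw [← Ideal.inertiaDeg'_eq_inertiaDeg (Q.under (𝓞 K)) Q] at h1
  have h2 : (Q.under (𝓞 K)).ramificationIdx' Q * (Q.under (𝓞 K)).inertiaDeg' Q = 1 := by
    simpa using h1.symm
  exact ⟨Nat.eq_one_of_mul_eq_one_right h2, Nat.eq_one_of_mul_eq_one_left h2⟩

end Galois

section Kummer

variable {K L : Type*} [Field K] [Field L] [Algebra K L] [FiniteDimensional K L] [IsGalois K L]
variable (p : ℕ) [Fact p.Prime]

/-- A Galois extension of prime degree `p` of a field containing the `p`-th roots of unity is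
generated by a `p`-th root. -/
theorem exists_kummer_root (hfin : Module.finrank K L = p) (ζ : K) (hζ : IsPrimitiveRoot ζ p) :
    ∃ (θ : L) (a : K), θ ≠ 0 ∧ θ ^ p = algebraMap K L a ∧ IntermediateField.adjoin K {θ} = ⊤ := by
  have hp : p.Prime := Fact.out
  have : IsCyclic (L ≃ₐ[K] L) :=
    isCyclic_of_prime_card (p := p) (by rw [IsGalois.card_aut_eq_finrank, hfin])
  have hK : (primitiveRoots (Module.finrank K L) K).Nonempty := by
    rw [hfin]
    exact ⟨ζ, (mem_primitiveRoots hp.pos).mpr hζ⟩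
  obtain ⟨θ, ⟨a, ha⟩, hθ⟩ := exists_root_adjoin_eq_top_of_isCyclic K L hK
  rw [hfin] at ha
  refine ⟨θ, a, ?_, ha.symm, hθ⟩
  rintro rfl
  have h1 : IntermediateField.adjoin K {(0 : L)} = ⊥ := by
    rw [IntermediateField.adjoin_simple_eq_bot_iff]
    exact zero_mem _
  rw [h1] at hθ
  have h2 := congrArg (fun E : IntermediateField K L => Module.finrank K E) hθ
  simp only [IntermediateField.finrank_bot, IntermediateField.finrank_top', hfin] at h2
  exact hp.one_lt.ne h2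

omit [FiniteDimensional K L] [IsGalois K L] in
/-- The radicand of a generating `p`-th root is not a `p`-th power. -/
theorem not_pow_of_adjoin_eq_top (hfin : Module.finrank K L = p) (ζ : K)
    (hζ : IsPrimitiveRoot ζ p) (θ : L) (a : K) (hθ0 : θ ≠ 0) (hθ : θ ^ p = algebraMap K L a)
    (htop : IntermediateField.adjoin K {θ} = ⊤) : ¬ ∃ x : K, x ^ p = a := by
  have hp : p.Prime := Fact.out
  have : NeZero p := ⟨hp.ne_zero⟩
  rintro ⟨x, rfl⟩
  have hx0 : algebraMap K L x ≠ 0 := by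
    intro h0
    rw [map_pow, h0, zero_pow hp.ne_zero] at hθ
    exact hθ0 (pow_eq_zero_iff hp.ne_zero |>.mp hθ)
  have hζ' : IsPrimitiveRoot (algebraMap K L ζ) p :=
    hζ.map_of_injective (algebraMap K L).injective
  have h1 : (θ / algebraMap K L x) ^ p = 1 := by
    rw [div_pow, hθ, map_pow, div_self (pow_ne_zero _ hx0)]
  obtain ⟨i, -, hi⟩ := hζ'.eq_pow_of_pow_eq_one h1
  have hmem : θ ∈ (⊥ : IntermediateField K L) := by
    rw [IntermediateField.mem_bot]
    refine ⟨ζ ^ i * x, ?_⟩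
    rw [map_mul, map_pow, hi, div_mul_cancel₀ _ hx0]
  have h2 : IntermediateField.adjoin K {θ} = ⊥ := by
    rw [IntermediateField.adjoin_simple_eq_bot_iff]
    exact hmem
  rw [h2] at htop
  have h3 := congrArg (fun E : IntermediateField K L => Module.finrank K E) htop
  simp only [IntermediateField.finrank_bot, IntermediateField.finrank_top', hfin] at h3
  exact hp.one_lt.ne h3

omit [FiniteDimensional K L] [IsGalois K L] in
/-- Every automorphism multiplies a `p`-th root by a root of unity. -/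
theorem exists_pow_smul (ζ : K) (hζ : IsPrimitiveRoot ζ p) (θ : L) (a : K) (hθ0 : θ ≠ 0)
    (hθ : θ ^ p = algebraMap K L a) (τ : L ≃ₐ[K] L) :
    ∃ i : ℕ, τ θ = algebraMap K L (ζ ^ i) * θ := by
  have hp : p.Prime := Fact.out
  have : NeZero p := ⟨hp.ne_zero⟩
  have hζ' : IsPrimitiveRoot (algebraMap K L ζ) p :=
    hζ.map_of_injective (algebraMap K L).injective
  have h1 : (τ θ / θ) ^ p = 1 := by
    rw [div_pow, ← map_pow, hθ, AlgEquiv.commutes, div_self]
    rw [← hθ]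
    exact pow_ne_zero _ hθ0
  obtain ⟨i, -, hi⟩ := hζ'.eq_pow_of_pow_eq_one h1
  refine ⟨i, ?_⟩
  rw [map_pow, hi, div_mul_cancel₀ _ hθ0]

omit [FiniteDimensional K L] [IsGalois K L] [Fact p.Prime] in
theorem pow_apply_of_apply (ζ : K) (θ : L) (τ : L ≃ₐ[K] L) (i : ℕ)
    (h : τ θ = algebraMap K L (ζ ^ i) * θ) (n : ℕ) :
    (τ ^ n) θ = algebraMap K L (ζ ^ (i * n)) * θ := by
  induction n with
  | zero => simp
  | succ n ih =>
    rw [pow_succ, AlgEquiv.mul_apply, h, map_mul, AlgEquiv.commutes, ih, ← mul_assoc, ← map_mul,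
      ← pow_add]
    congr 3
    ring

/-- The eigen law: if a ring automorphism `s` of `L` restricts to `σ` on `K`, `σ ζ = ζ ^ b`, and
`s ∘ τ ^ b = τ ∘ s` for every `τ ∈ Gal(L/K)`, then `σ a = a ^ (b ^ 2) * c ^ p`. -/
theorem eigen_law (ζ : K) (hζ : IsPrimitiveRoot ζ p) (θ : L) (a : K) (hθ0 : θ ≠ 0)
    (hθ : θ ^ p = algebraMap K L a) (σ : K →+* K) (s : L →+* L)
    (hs : ∀ x : K, s (algebraMap K L x) = algebraMap K L (σ x)) (b : ℕ) (hb : σ ζ = ζ ^ b)
    (hcomm : ∀ (τ : L ≃ₐ[K] L) (x : L), s ((τ ^ b) x) = τ (s x)) :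
    ∃ c : K, c ≠ 0 ∧ σ a = a ^ (b ^ 2) * c ^ p := by
  have hp : p.Prime := Fact.out
  have hsθ0 : s θ ≠ 0 := by
    rw [Ne, map_eq_zero_iff s s.injective]
    exact hθ0
  have hfix : ∀ τ : L ≃ₐ[K] L, τ (s θ / θ ^ (b ^ 2)) = s θ / θ ^ (b ^ 2) := by
    intro τ
    obtain ⟨i, hi⟩ := exists_pow_smul p ζ hζ θ a hθ0 hθ τ
    have h1 : τ (s θ) = algebraMap K L (ζ ^ (i * b * b)) * s θ := by
      rw [← hcomm τ θ, pow_apply_of_apply ζ θ τ i hi b, map_mul, hs, map_pow, hb, ← pow_mul]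
      congr 3
      ring
    have h2 : τ (θ ^ (b ^ 2)) = algebraMap K L (ζ ^ (i * b * b)) * θ ^ (b ^ 2) := by
      rw [map_pow, hi, mul_pow, ← map_pow, ← pow_mul]
      congr 3
      ring
    rw [map_div₀, h1, h2, mul_div_mul_left]
    rw [Ne, map_eq_zero_iff _ (algebraMap K L).injective]
    exact pow_ne_zero _ (hζ.ne_zero hp.ne_zero)
  obtain ⟨c, hc⟩ := (IsGalois.mem_range_algebraMap_iff_fixed _).mpr hfix
  have hθb : θ ^ (b ^ 2) ≠ 0 := pow_ne_zero _ hθ0
  have hsθ : s θ = algebraMap K L c * θ ^ (b ^ 2) := by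
    rw [hc, div_mul_cancel₀ _ hθb]
  have hc0 : c ≠ 0 := by
    rintro rfl
    rw [map_zero, zero_mul] at hsθ
    exact hsθ0 hsθ
  refine ⟨c, hc0, ?_⟩
  apply (algebraMap K L).injective
  rw [← hs, ← hθ, map_pow, hsθ, map_mul, map_pow, map_pow, ← hθ]
  ring

end Kummer

section Assembly

variable {K L : Type*} [Field K] [Field L] [NumberField K] [NumberField L] [Algebra K L]

omit [NumberField K] [NumberField L] in
/-- Multiplying a generator by a nonzero element of the base field keeps it a generator. -/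
theorem adjoin_mul_algebraMap_eq_top (θ : L) (t : K) (ht : t ≠ 0)
    (h : IntermediateField.adjoin K {θ} = ⊤) :
    IntermediateField.adjoin K {θ * algebraMap K L t} = ⊤ := by
  rw [eq_top_iff, ← h, IntermediateField.adjoin_le_iff, Set.singleton_subset_iff]
  have h1 : θ = θ * algebraMap K L t * algebraMap K L t⁻¹ := by
    rw [mul_assoc, ← map_mul, mul_inv_cancel₀ ht, map_one, mul_one]
  have h2 : θ * algebraMap K L t * algebraMap K L t⁻¹ ∈
      IntermediateField.adjoin K {θ * algebraMap K L t} :=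
    mul_mem (IntermediateField.mem_adjoin_simple_self K _) (IntermediateField.algebraMap_mem _ _)
  rwa [← h1] at h2

omit [NumberField K] [NumberField L] in
/-- A `p`-th root of an algebraic integer is an algebraic integer. -/
theorem exists_integer_of_pow_eq (p : ℕ) (hp : 0 < p) (θ : L) (a : 𝓞 K)
    (hθ : θ ^ p = algebraMap K L (algebraMap (𝓞 K) K a)) :
    ∃ θ' : 𝓞 L, algebraMap (𝓞 L) L θ' = θ ∧ θ' ^ p = algebraMap (𝓞 K) (𝓞 L) a := by
  have hint : IsIntegral ℤ θ := by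
    refine IsIntegral.of_pow hp ?_
    rw [hθ]
    exact (a.isIntegral_coe).map (IsScalarTower.toAlgHom ℤ K L)
  have hmem : θ ∈ integralClosure ℤ L := hint
  let θ' : 𝓞 L := ⟨θ, hmem⟩
  have hθ' : algebraMap (𝓞 L) L θ' = θ := rfl
  refine ⟨θ', hθ', ?_⟩
  apply NumberField.RingOfIntegers.coe_injective
  rw [map_pow, hθ', hθ]
  rfl

/-- In an unramified Galois extension, the radicand of an integral `p`-th root has all its prime
multiplicities divisible by `p`. -/
theorem dvd_multiplicity_of_unramified [IsGalois K L]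
    (hunram : ∀ Q : Ideal (𝓞 L), Q.IsPrime → Q ≠ ⊥ → Q.inertia (L ≃ₐ[K] L) = ⊥)
    (p : ℕ) (hp : p ≠ 0) (a : 𝓞 K) (ha : a ≠ 0) (θ : 𝓞 L)
    (hθ : θ ^ p = algebraMap (𝓞 K) (𝓞 L) a) (v : HeightOneSpectrum (𝓞 K)) :
    p ∣ multiplicity v.asIdeal (Ideal.span {a}) := by
  have hvmax := v.isMaximal
  obtain ⟨Q, hQmax, hQover⟩ :=
    Ideal.exists_maximal_ideal_liesOver_of_isIntegral v.asIdeal (S := 𝓞 L)
  have hQ0 : Q ≠ ⊥ := by
    rintro rfl
    apply v.ne_bot
    rw [hQover.over]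
    exact Ideal.under_bot _ _
  have hQprime : Q.IsPrime := hQmax.isPrime
  let w : HeightOneSpectrum (𝓞 L) := ⟨Q, hQprime, hQ0⟩
  have hw : w.asIdeal.LiesOver v.asIdeal := hQover
  have he : v.asIdeal.ramificationIdx' w.asIdeal = 1 := by
    have h1 := ramificationIdx'_eq_one_of_inertia_eq_bot (K := K) Q hQ0 (hunram Q hQprime hQ0)
    rwa [← hQover.over] at h1
  exact dvd_multiplicity_of_pow_eq v w he a ha θ p hp hθ

/-- If the decomposition groups over `v` are trivial, then the radicand of an integral `p`-th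
root is a `p`-th power modulo every power of `v`. -/
theorem exists_sub_pow_mem_of_split [IsGalois K L] (v : HeightOneSpectrum (𝓞 K))
    (hsplit : ∀ Q : Ideal (𝓞 L), Q.IsPrime → Q.LiesOver v.asIdeal →
      ∀ τ : L ≃ₐ[K] L, τ • Q = Q → τ = 1)
    (p n : ℕ) (a : 𝓞 K) (θ : 𝓞 L) (hθ : θ ^ p = algebraMap (𝓞 K) (𝓞 L) a) :
    ∃ y : 𝓞 K, a - y ^ p ∈ v.asIdeal ^ n := by
  have hvmax := v.isMaximal
  obtain ⟨Q, hQmax, hQover⟩ :=
    Ideal.exists_maximal_ideal_liesOver_of_isIntegral v.asIdeal (S := 𝓞 L)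
  have hQ0 : Q ≠ ⊥ := by
    rintro rfl
    apply v.ne_bot
    rw [hQover.over]
    exact Ideal.under_bot _ _
  have hQprime : Q.IsPrime := hQmax.isPrime
  let w : HeightOneSpectrum (𝓞 L) := ⟨Q, hQprime, hQ0⟩
  have hw : w.asIdeal.LiesOver v.asIdeal := hQover
  obtain ⟨he, hf⟩ := ramificationIdx'_inertiaDeg'_eq_one_of_stabilizer (K := K) Q hQ0
    (hsplit Q hQprime hQover)
  rw [← hQover.over] at he hf
  obtain ⟨y, hy⟩ := exists_sub_mem_pow v w he (exists_sub_mem_of_inertiaDeg_eq_one v w hf) n θ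
  refine ⟨y, mem_pow_of_algebraMap_mem_pow v w he _ n ?_⟩
  rw [map_sub, map_pow, ← hθ]
  exact Ideal.mem_of_dvd _ (sub_dvd_pow_sub_pow _ _ p) hy

/-- A Galois extension of number fields of prime degree `p`, over a field containing the `p`-th
roots of unity, is generated by an integral `p`-th root of a nonzero algebraic integer. -/
theorem exists_integral_kummer_root (p : ℕ) [Fact p.Prime] (K L : Type*) [Field K] [Field L]
    [NumberField K] [NumberField L] [Algebra K L] [IsGalois K L] (ζ : K)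
    (hζ : IsPrimitiveRoot ζ p) (hfin : Module.finrank K L = p) :
    ∃ (θ : 𝓞 L) (a : 𝓞 K), a ≠ 0 ∧ θ ^ p = algebraMap (𝓞 K) (𝓞 L) a ∧
      algebraMap (𝓞 L) L θ ≠ 0 ∧ IntermediateField.adjoin K {algebraMap (𝓞 L) L θ} = ⊤ := by
  have hp : p.Prime := Fact.out
  have hfd : FiniteDimensional K L := Module.Finite.of_restrictScalars_finite ℚ K L
  obtain ⟨θ₀, a₀, hθ₀0, hθ₀, htop₀⟩ := exists_kummer_root p hfin ζ hζ
  obtain ⟨n, d, hd, rfl⟩ := IsFractionRing.div_surjective (A := 𝓞 K) a₀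
  have hd0 : algebraMap (𝓞 K) K d ≠ 0 := by
    rw [Ne, NumberField.RingOfIntegers.coe_eq_zero_iff]
    exact nonZeroDivisors.ne_zero hd
  have hdL0 : algebraMap K L (algebraMap (𝓞 K) K d) ≠ 0 := by
    rwa [Ne, map_eq_zero_iff _ (algebraMap K L).injective]
  have hθ₁ : (θ₀ * algebraMap K L (algebraMap (𝓞 K) K d)) ^ p =
      algebraMap K L (algebraMap (𝓞 K) K (n * d ^ (p - 1))) := by
    rw [mul_pow, hθ₀, ← map_pow, ← map_mul]
    congr 1
    rw [map_mul, map_pow]
    have hdp : algebraMap (𝓞 K) K d ^ p =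
        algebraMap (𝓞 K) K d ^ (p - 1) * algebraMap (𝓞 K) K d := by
      rw [← pow_succ, Nat.sub_add_cancel hp.pos]
    rw [hdp]
    field_simp
  obtain ⟨θ₁, hθ₁coe, hθ₁pow⟩ := exists_integer_of_pow_eq p hp.pos _ (n * d ^ (p - 1)) hθ₁
  have ha₁0 : n * d ^ (p - 1) ≠ 0 := by
    intro h0
    rw [h0, map_zero, map_zero] at hθ₁
    exact pow_ne_zero p (mul_ne_zero hθ₀0 hdL0) hθ₁
  refine ⟨θ₁, n * d ^ (p - 1), ha₁0, hθ₁pow, ?_, ?_⟩
  · rw [hθ₁coe]
    exact mul_ne_zero hθ₀0 hdL0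
  · rw [hθ₁coe]
    exact adjoin_mul_algebraMap_eq_top θ₀ _ hd0 htop₀

/-- **The Kummer generator.**  Let `K` be the `p`-th cyclotomic field and `L / K` a Galois
extension of degree `p`, unramified at every finite prime, in which the primes over `p` have
trivial decomposition group, and on which every automorphism `σ` of `K` with `σ ζ = ζ ^ b` lifts
to a ring automorphism `s` of `L` with `s ∘ τ ^ b = τ ∘ s` for all `τ ∈ Gal(L/K)`.
Then `L = K(θ)` with `θ ^ p = α`, where `α` is an algebraic integer of `K` prime to `1 - ζ` which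
is not a `p`-th power, is of `ω²`-type, generates the `p`-th power of an ideal, and is a `p`-th
power modulo `(1 - ζ) ^ 3`. -/
theorem exists_singular_primary (p : ℕ) [Fact p.Prime]
    (K L : Type*) [Field K] [Field L] [NumberField K] [NumberField L] [Algebra K L]
    [IsGalois K L] [IsCyclotomicExtension {p} ℚ K]
    (ζ : 𝓞 K) (hζ : IsPrimitiveRoot ζ p)
    (hfin : Module.finrank K L = p)
    (hunram : ∀ Q : Ideal (𝓞 L), Q.IsPrime → Q ≠ ⊥ → Q.inertia (L ≃ₐ[K] L) = ⊥)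
    (hlift : ∀ (σ : K ≃ₐ[ℚ] K) (b : ℕ),
      σ (algebraMap (𝓞 K) K ζ) = algebraMap (𝓞 K) K ζ ^ b → ∃ s : L ≃+* L,
        (∀ x : K, s (algebraMap K L x) = algebraMap K L (σ x)) ∧
        ∀ (τ : L ≃ₐ[K] L) (x : L), s ((τ ^ b) x) = τ (s x))
    (hsplit : ∀ Q : Ideal (𝓞 L), Q.IsPrime → (p : 𝓞 L) ∈ Q →
      ∀ τ : L ≃ₐ[K] L, τ • Q = Q → τ = 1) :
    ∃ (α : 𝓞 K) (θ : 𝓞 L), α ≠ 0 ∧ θ ^ p = algebraMap (𝓞 K) (𝓞 L) α ∧
      IntermediateField.adjoin K {algebraMap (𝓞 L) L θ} = ⊤ ∧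
      ¬ (1 - ζ) ∣ α ∧
      (¬ ∃ x : K, x ^ p = algebraMap (𝓞 K) K α) ∧
      (∀ (σ : K ≃ₐ[ℚ] K) (b : ℕ), σ (algebraMap (𝓞 K) K ζ) = algebraMap (𝓞 K) K ζ ^ b →
        ∃ c : K, c ≠ 0 ∧
          σ (algebraMap (𝓞 K) K α) = algebraMap (𝓞 K) K α ^ (b ^ 2) * c ^ p) ∧
      (∃ 𝔞 : Ideal (𝓞 K), Ideal.span {α} = 𝔞 ^ p) ∧
      (∃ y : 𝓞 K, α - y ^ p ∈ Ideal.span {(1 - ζ) ^ 3}) := by
  have hp : p.Prime := Fact.out
  have hfd : FiniteDimensional K L := Module.Finite.of_restrictScalars_finite ℚ K L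
  have hζK : IsPrimitiveRoot (algebraMap (𝓞 K) K ζ) p :=
    hζ.map_of_injective NumberField.RingOfIntegers.coe_injective
  obtain ⟨θ₁, a₁, ha₁0, hθ₁pow, hθ₁0, htop₁⟩ := exists_integral_kummer_root p K L _ hζK hfin
  have hθ₁L : algebraMap (𝓞 L) L θ₁ ^ p = algebraMap K L (algebraMap (𝓞 K) K a₁) := by
    rw [← map_pow, hθ₁pow]
    rfl
  -- the prime `π = 1 - ζ`
  have hti : hζK.toInteger = ζ := NumberField.RingOfIntegers.coe_injective rfl
  have hπ : Prime (1 - ζ) := by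
    have h1 := hζK.zeta_sub_one_prime'
    rw [hti] at h1
    rw [← neg_sub]
    exact h1.neg
  have hπdvd : (1 - ζ) ∣ (p : 𝓞 K) := by
    have h1 := hζK.toInteger_sub_one_dvd_prime'
    rw [hti] at h1
    rw [← neg_sub]
    exact (neg_dvd).mpr h1
  obtain ⟨m, a₂, hπa₂, ha₁eq⟩ := WfDvdMonoid.max_power_factor ha₁0 hπ.irreducible
  let vπ : HeightOneSpectrum (𝓞 K) :=
    ⟨Ideal.span {1 - ζ}, (Ideal.span_singleton_prime hπ.ne_zero).mpr hπ, by
      simpa using hπ.ne_zero⟩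
  have hmult : multiplicity vπ.asIdeal (Ideal.span {a₁}) = m := by
    apply multiplicity_eq_of_dvd_of_not_dvd
    · show Ideal.span {1 - ζ} ^ m ∣ Ideal.span {a₁}
      rw [Ideal.span_singleton_pow, Ideal.dvd_iff_le, Ideal.span_singleton_le_span_singleton]
      exact ⟨a₂, ha₁eq⟩
    · show ¬ Ideal.span {1 - ζ} ^ (m + 1) ∣ Ideal.span {a₁}
      rw [Ideal.span_singleton_pow, Ideal.dvd_iff_le, Ideal.span_singleton_le_span_singleton]
      rintro ⟨c, hc⟩
      apply hπa₂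
      refine ⟨c, ?_⟩
      have h1 : (1 - ζ) ^ m * a₂ = (1 - ζ) ^ m * ((1 - ζ) * c) := by
        rw [← ha₁eq, hc]; ring
      exact mul_left_cancel₀ (pow_ne_zero _ hπ.ne_zero) h1
  obtain ⟨k, hk⟩ : p ∣ m := by
    rw [← hmult]
    exact dvd_multiplicity_of_unramified hunram p hp.ne_zero _ ha₁0 θ₁ hθ₁pow vπ
  have ha₂0 : a₂ ≠ 0 := by
    rintro rfl
    exact hπa₂ (dvd_zero _)
  have hπK0 : algebraMap (𝓞 K) K (1 - ζ) ≠ 0 := by
    rw [Ne, NumberField.RingOfIntegers.coe_eq_zero_iff]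
    exact hπ.ne_zero
  have ht0 : (algebraMap (𝓞 K) K (1 - ζ) ^ k)⁻¹ ≠ 0 := inv_ne_zero (pow_ne_zero _ hπK0)
  have hθ₂ : (algebraMap (𝓞 L) L θ₁ * algebraMap K L ((algebraMap (𝓞 K) K (1 - ζ) ^ k)⁻¹)) ^ p =
      algebraMap K L (algebraMap (𝓞 K) K a₂) := by
    rw [mul_pow, hθ₁L, ← map_pow, ← map_mul]
    congr 1
    rw [ha₁eq, hk, map_mul, map_pow, inv_pow, ← pow_mul, mul_comm k p]
    have hπ' : algebraMap (𝓞 K) K (1 - ζ) ^ (p * k) ≠ 0 := pow_ne_zero _ hπK0
    field_simp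
  obtain ⟨θ₂, hθ₂coe, hθ₂pow⟩ := exists_integer_of_pow_eq p hp.pos _ a₂ hθ₂
  have htop₂ : IntermediateField.adjoin K {algebraMap (𝓞 L) L θ₂} = ⊤ := by
    rw [hθ₂coe]
    exact adjoin_mul_algebraMap_eq_top _ _ ht0 htop₁
  have hθ₂0 : algebraMap (𝓞 L) L θ₂ ≠ 0 := by
    rw [hθ₂coe]
    exact mul_ne_zero hθ₁0 (by rwa [Ne, map_eq_zero_iff _ (algebraMap K L).injective])
  have hθ₂' : algebraMap (𝓞 L) L θ₂ ^ p = algebraMap K L (algebraMap (𝓞 K) K a₂) := by
    rw [hθ₂coe]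
    exact hθ₂
  refine ⟨a₂, θ₂, ha₂0, hθ₂pow, htop₂, hπa₂, ?_, ?_, ?_, ?_⟩
  · exact not_pow_of_adjoin_eq_top p hfin _ hζK _ _ hθ₂0 hθ₂' htop₂
  · intro σ b hb
    obtain ⟨s, hs1, hs2⟩ := hlift σ b hb
    exact eigen_law p _ hζK _ _ hθ₂0 hθ₂' (σ : K →+* K) (s : L →+* L) hs1 b hb hs2
  · apply exists_eq_pow_of_dvd_multiplicity _ (by simpa using ha₂0) p
    intro v
    exact dvd_multiplicity_of_unramified hunram p hp.ne_zero a₂ ha₂0 θ₂ hθ₂pow v
  · obtain ⟨y, hy⟩ := exists_sub_pow_mem_of_split vπ (fun Q hQ hQover => hsplit Q hQ (by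
      have h1 : (p : 𝓞 K) ∈ vπ.asIdeal := Ideal.mem_span_singleton.mpr hπdvd
      have h2 := (Ideal.mem_of_liesOver Q vπ.asIdeal (p : 𝓞 K)).mp h1
      simpa using h2)) p 3 a₂ θ₂ hθ₂pow
    refine ⟨y, ?_⟩
    rw [← Ideal.span_singleton_pow]
    exact hy

end Assembly

end Fermat.Agent.S14.Thaine.KummerGen
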